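/-
S18 / Route K, piece b2.3 = (α) TAME  (helper693).  Mathlib-only.

`R` a DVR with residue field of characteristic `0`, `T` a finite free `R`-algebra which is an
integrally closed domain.  Then  `v(discr T) + dim_κ (T/𝔪T)_red ≤ rank_R T`
(with the lower bound `(β)` this is an equality: the tame discriminant formula
`v(disc) = Σ f_P (e_P - 1)`).

Proof.  `T` is a PID; let `z` generate the radical of `𝔪T`.  The twisted Gram matrix
`Tr(z b_i b_j)` is divisible by the uniformizer `ϖ`, and `ϖ⁻¹ Tr(z b_i b_j)` is unimodular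
(tameness: the trace of a nonzero idempotent of the fibre is nonzero).  On the other hand
`Tr(z b_i b_j) = traceMatrix * leftMulMatrix z`, and `ϖ ^ redDim ∣ det (leftMulMatrix z)`
(det-rank lemma).
-/
import Mathlib

set_option autoImplicit false
set_option linter.style.haveILetI false
set_option linter.unusedSectionVars false

namespace Fermat.Agent.S18.H693

open Module IsLocalRing

/-- The special fibre `S/𝔪S` of an algebra over a local ring (same expression as
`Fermat.Agent.S18.H636.Fib`). -/
abbrev Fib (R : Type*) [CommRing R] [IsLocalRing R] (S : Type*) [CommRing S] [Algebra R S] :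
    Type _ := S ⧸ (maximalIdeal R).map (algebraMap R S)

/-- `dim_κ (S/𝔪S)_red` (same expression as `Fermat.Agent.S18.H636.redDim`). -/
noncomputable def redDim (R : Type*) [CommRing R] [IsLocalRing R] (S : Type*) [CommRing S]
    [Algebra R S] : ℕ :=
  finrank (R ⧸ maximalIdeal R) (Fib R S ⧸ nilradical (Fib R S))

section TraceFibre

variable {R : Type*} [CommRing R] [IsLocalRing R]
variable {T : Type*} [CommRing T] [Algebra R T] [Module.Free R T] [Module.Finite R T]

attribute [local instance] Ideal.Quotient.field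

/-- (T3) An element which is nilpotent modulo `𝔪T` has trace in `𝔪`. -/
theorem trace_mem_maximalIdeal_of_pow_mem (y : T) (N : ℕ)
    (hy : y ^ N ∈ (maximalIdeal R).map (algebraMap R T)) :
    Algebra.trace R T y ∈ maximalIdeal R := by
  rw [← Ideal.Quotient.eq_zero_iff_mem, ← Algebra.trace_quotient_mk]
  have hnil : IsNilpotent (Ideal.Quotient.mk ((maximalIdeal R).map (algebraMap R T)) y) := by
    refine ⟨N, ?_⟩
    rw [← map_pow, Ideal.Quotient.eq_zero_iff_mem]
    exact hy
  have h2 : IsNilpotent (Algebra.lmul (R ⧸ maximalIdeal R)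
      (T ⧸ (maximalIdeal R).map (algebraMap R T))
      (Ideal.Quotient.mk ((maximalIdeal R).map (algebraMap R T)) y)) := hnil.map _
  rw [Algebra.trace_apply]
  exact (LinearMap.isNilpotent_trace_of_isNilpotent h2).eq_zero

/-- (T4) An element which is a nonzero idempotent modulo `𝔪T` has trace outside `𝔪`,
if the residue field has characteristic zero. -/
theorem trace_notMem_maximalIdeal_of_idem [CharZero (R ⧸ maximalIdeal R)] (ε : T)
    (hidem : ε * ε - ε ∈ (maximalIdeal R).map (algebraMap R T))
    (hne : ε ∉ (maximalIdeal R).map (algebraMap R T)) :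
    Algebra.trace R T ε ∉ maximalIdeal R := by
  rw [← Ideal.Quotient.eq_zero_iff_mem, ← Algebra.trace_quotient_mk]
  set κ := R ⧸ maximalIdeal R
  set Fb := T ⧸ (maximalIdeal R).map (algebraMap R T)
  set e : Fb := Ideal.Quotient.mk ((maximalIdeal R).map (algebraMap R T)) ε with he
  have hee : e * e = e := by
    rw [he, ← map_mul, ← sub_eq_zero, ← map_sub, Ideal.Quotient.eq_zero_iff_mem]
    exact hidem
  have hne' : e ≠ 0 := by
    rw [he, Ne, Ideal.Quotient.eq_zero_iff_mem]
    exact hne
  haveI : Module.Finite κ Fb := Module.Finite.of_restrictScalars_finite R _ _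
  set f : Fb →ₗ[κ] Fb := Algebra.lmul κ Fb e with hf
  have hproj : LinearMap.IsProj (LinearMap.range f) f := by
    refine ⟨fun x => LinearMap.mem_range_self f x, ?_⟩
    rintro x ⟨y, rfl⟩
    simp only [hf, Algebra.coe_lmul_eq_mul, LinearMap.mul_apply']
    rw [← mul_assoc, hee]
  rw [Algebra.trace_apply, ← hf, hproj.trace]
  have hpos : finrank κ (LinearMap.range f) ≠ 0 := by
    have hmem : e ∈ LinearMap.range f := ⟨e, by simp [hf, hee]⟩
    intro h0
    have := (Submodule.finrank_eq_zero (S := LinearMap.range f)).mp h0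
    rw [this] at hmem
    exact hne' (by simpa using hmem)
  exact_mod_cast hpos

end TraceFibre

section PID

/-- (T1) A finite integrally closed domain over a DVR is a Dedekind domain. -/
theorem isDedekindDomain_of_finite_dvr (R : Type*) [CommRing R] [IsDomain R]
    [IsDiscreteValuationRing R] (T : Type*) [CommRing T] [IsDomain T] [IsIntegrallyClosed T]
    [Algebra R T] [Module.Finite R T] : IsDedekindDomain T := by
  haveI : IsNoetherianRing T := IsNoetherianRing.of_finite R T
  haveI : Ring.DimensionLEOne T := Ring.DimensionLEOne.of_isIntegral R T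
  exact { }

/-- (T1) A finite integrally closed domain over a DVR is a principal ideal domain. -/
theorem isPrincipalIdealRing_of_finite_dvr (R : Type*) [CommRing R] [IsDomain R]
    [IsDiscreteValuationRing R] (T : Type*) [CommRing T] [IsDomain T] [IsIntegrallyClosed T]
    [Algebra R T] [Module.Finite R T] : IsPrincipalIdealRing T := by
  haveI := isDedekindDomain_of_finite_dvr R T
  apply IsPrincipalIdealRing.of_finite_primes
  have hfin : ((maximalIdeal R).primesOver T).Finite :=
    Algebra.QuasiFinite.finite_primesOver (maximalIdeal R)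
  refine ((Set.finite_singleton (⊥ : Ideal T)).union hfin).subset ?_
  intro P hP
  have hP' : P.IsPrime := hP
  by_cases hbot : P = ⊥
  · left; exact hbot
  · right
    haveI : P.IsMaximal := hP'.isMaximal hbot
    refine ⟨hP', ⟨?_⟩⟩
    have : (P.under R).IsMaximal := Ideal.IsMaximal.under R P
    exact (eq_maximalIdeal this).symm

end PID

section NDcore

variable {T : Type*} [CommRing T] [IsDomain T] [IsPrincipalIdealRing T]

/-- In a UFD: if `τ ∤ c` there is a prime `q` and `k` with `q ^ k ∣ τ` but `¬ q ^ k ∣ c`. -/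
theorem exists_prime_pow_dvd_not_dvd {τ c : T} (hτ : τ ≠ 0) (hc : ¬ τ ∣ c) :
    ∃ q : T, Prime q ∧ ∃ k : ℕ, q ^ k ∣ τ ∧ ¬ q ^ k ∣ c := by
  rw [UniqueFactorizationMonoid.dvd_iff_emultiplicity_le hτ] at hc
  simp only [not_forall, not_le] at hc
  obtain ⟨q, hq, hlt⟩ := hc
  refine ⟨q, hq, ?_⟩
  have hfin : emultiplicity q c ≠ ⊤ := ne_top_of_lt hlt
  obtain ⟨a, ha⟩ := ENat.ne_top_iff_exists.mp hfin
  refine ⟨a + 1, ?_, ?_⟩
  · apply pow_dvd_of_le_emultiplicity
    rw [← ha] at hlt
    exact_mod_cast Order.add_one_le_of_lt hlt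
  · rw [← emultiplicity_lt_iff_not_dvd, ← ha]
    exact_mod_cast Nat.lt_succ_self a

/-- (T2)+(T5) core: `z` a generator of the radical of `(τ)` in a PID, `τ ∤ c`.
Then `z c c' = τ ε` for some `c'` and some `ε` which is a nonzero idempotent modulo `τ`. -/
theorem exists_mul_eq_mul_idem {τ z c : T} (hτ : τ ≠ 0)
    (hz : Ideal.span {z} = (Ideal.span {τ}).radical) (hc : ¬ τ ∣ c) :
    ∃ c' ε : T, z * c * c' = τ * ε ∧ τ ∣ ε * ε - ε ∧ ¬ τ ∣ ε := by
  obtain ⟨q, hq, k, hkτ, hkc⟩ := exists_prime_pow_dvd_not_dvd hτ hc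
  have hc0 : c ≠ 0 := by rintro rfl; exact hkc (dvd_zero _)
  obtain ⟨a, c₁, hc₁, hcfac⟩ := WfDvdMonoid.max_power_factor hc0 hq.irreducible
  obtain ⟨e, t', ht', hτfac⟩ := WfDvdMonoid.max_power_factor hτ hq.irreducible
  have hak : a < k := by
    by_contra h
    rw [not_lt] at h
    exact hkc (hcfac ▸ Dvd.dvd.mul_right (pow_dvd_pow q h) c₁)
  have hke : k ≤ e := by
    by_contra h
    rw [not_le] at h
    have h1 : q ^ (e + 1) ∣ q ^ e * t' := hτfac ▸ (pow_dvd_pow q h).trans hkτ
    rw [pow_succ] at h1
    exact ht' ((mul_dvd_mul_iff_left (pow_ne_zero e hq.ne_zero)).mp h1)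
  have hae : a + 1 ≤ e := by omega
  have he1 : 1 ≤ e := by omega
  have hqτ : q ∣ τ := hτfac ▸ Dvd.dvd.mul_right (dvd_pow_self q (by omega)) t'
  -- `z` lies in the radical
  have hzrad : z ∈ (Ideal.span {τ}).radical := by
    rw [← hz]; exact Ideal.mem_span_singleton_self z
  have hz0 : z ≠ 0 := by
    rintro rfl
    have : τ ∈ Ideal.span {(0 : T)} := by
      rw [hz]; exact Ideal.le_radical (Ideal.mem_span_singleton_self τ)
    rw [Ideal.mem_span_singleton, zero_dvd_iff] at this
    exact hτ this
  have hqz : q ∣ z := by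
    obtain ⟨N, hN⟩ := Ideal.mem_radical_iff.mp hzrad
    rw [Ideal.mem_span_singleton] at hN
    exact hq.dvd_of_dvd_pow (hqτ.trans hN)
  obtain ⟨z₁, hz₁⟩ := hqz
  have hqz₁ : ¬ q ∣ z₁ := by
    rintro ⟨z₂, hz₂⟩
    -- `z = q * q * z₂`; then `q * z₂` is in the radical, hence divisible by `z`
    have hmem : q * z₂ ∈ (Ideal.span {τ}).radical := by
      apply (Ideal.radical_isRadical _)
      refine ⟨2, ?_⟩
      have : (q * z₂) ^ 2 = z * z₂ := by rw [hz₁, hz₂]; ring
      rw [this]
      exact Ideal.mul_mem_right _ _ hzrad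
    rw [← hz, Ideal.mem_span_singleton] at hmem
    obtain ⟨w, hw⟩ := hmem
    have hz₂0 : z₂ ≠ 0 := by rintro rfl; apply hz0; rw [hz₁, hz₂]; ring
    have : q * z₂ * 1 = q * z₂ * (q * w) := by
      rw [mul_one]; nth_rewrite 1 [hw]; rw [hz₁, hz₂]; ring
    have h1 : (1 : T) = q * w := mul_left_cancel₀ (mul_ne_zero hq.ne_zero hz₂0) this
    exact hq.not_isUnit (IsUnit.of_mul_eq_one w h1.symm)
  -- coprimality
  have hndvd : ¬ q ∣ c₁ * z₁ * t' := by
    intro h
    rcases hq.dvd_or_dvd h with h | h
    · rcases hq.dvd_or_dvd h with h | h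
      · exact hc₁ h
      · exact hqz₁ h
    · exact ht' h
  have hcop : IsCoprime (q ^ e) (c₁ * z₁ * t') :=
    ((Prime.coprime_iff_not_dvd hq).mpr hndvd).pow_left
  obtain ⟨α, β, hαβ⟩ := hcop
  refine ⟨q ^ (e - 1 - a) * β * t' * t', β * (c₁ * z₁ * t'), ?_, ?_, ?_⟩
  · have hpow : q * q ^ a * q ^ (e - 1 - a) = q ^ e := by
      rw [← pow_succ', ← pow_add]; congr 1; omega
    rw [hz₁, hcfac, hτfac]
    calc q * z₁ * (q ^ a * c₁) * (q ^ (e - 1 - a) * β * t' * t')
        = (q * q ^ a * q ^ (e - 1 - a)) * t' * (β * (c₁ * z₁ * t')) := by ring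
      _ = q ^ e * t' * (β * (c₁ * z₁ * t')) := by rw [hpow]
  · refine ⟨-(α * β * c₁ * z₁), ?_⟩
    have h1 : β * (c₁ * z₁ * t') = 1 - α * q ^ e := by rw [← hαβ]; ring
    rw [hτfac]
    calc β * (c₁ * z₁ * t') * (β * (c₁ * z₁ * t')) - β * (c₁ * z₁ * t')
        = β * (c₁ * z₁ * t') * (β * (c₁ * z₁ * t') - 1) := by ring
      _ = β * (c₁ * z₁ * t') * (-(α * q ^ e)) := by rw [h1]; ring
      _ = q ^ e * t' * -(α * β * c₁ * z₁) := by ring
  · intro h
    have h1 : q ∣ β * (c₁ * z₁ * t') := hqτ.trans h
    have h2 : q ∣ α * q ^ e := Dvd.dvd.mul_left (dvd_pow_self q (by omega)) α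
    have h3 : q ∣ 1 := by rw [← hαβ]; exact dvd_add h2 h1
    exact hq.not_isUnit (isUnit_of_dvd_one h3)

end NDcore

section DetRank

variable {R : Type*} [CommRing R] [IsLocalRing R]
variable {T : Type*} [CommRing T] [Algebra R T] [Module.Free R T] [Module.Finite R T]

attribute [local instance] Ideal.Quotient.field

/-- If all coordinates of `x` w.r.t. a basis vanish modulo `𝔪`... conversely: an element of `𝔪T`
has all its coordinates in `𝔪`. -/
theorem repr_mem_maximalIdeal_of_mk_eq_zero {σ : Type*} [Fintype σ] (B : Basis σ R T) (x : T)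
    (hx : Ideal.Quotient.mk ((maximalIdeal R).map (algebraMap R T)) x = 0) (i : σ) :
    B.repr x i ∈ maximalIdeal R := by
  rw [← Ideal.Quotient.eq_zero_iff_mem, ← basisQuotient_repr, hx]
  simp

/-- (DET-RANK) If `g : T → T` is `R`-linear and `ḡ` is the induced map on the fibre `T/𝔪T`, then
`ϖ ^ dim (ker ḡ)` divides `det g`. -/
theorem pow_finrank_ker_dvd_det (ϖ : R) (hϖ : maximalIdeal R = Ideal.span {ϖ})
    (g : T →ₗ[R] T)
    (gbar : (T ⧸ (maximalIdeal R).map (algebraMap R T)) →ₗ[R ⧸ maximalIdeal R]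
      (T ⧸ (maximalIdeal R).map (algebraMap R T)))
    (hg : ∀ x, gbar (Ideal.Quotient.mk _ x) = Ideal.Quotient.mk _ (g x)) :
    ϖ ^ finrank (R ⧸ maximalIdeal R) (LinearMap.ker gbar) ∣ LinearMap.det g := by
  classical
  set κ := R ⧸ maximalIdeal R
  set Fb := T ⧸ (maximalIdeal R).map (algebraMap R T)
  haveI : Module.Finite κ Fb := Module.Finite.of_restrictScalars_finite R _ _
  set K := LinearMap.ker gbar with hK
  obtain ⟨K', hcompl⟩ := Submodule.exists_isCompl K
  set dK := finrank κ K
  set dK' := finrank κ K'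
  let bK : Basis (Fin dK) κ K := Module.finBasis κ K
  let bK' : Basis (Fin dK') κ K' := Module.finBasis κ K'
  let Bbar : Basis (Fin dK ⊕ Fin dK') κ Fb :=
    (bK.prod bK').map (Submodule.prodEquivOfIsCompl K K' hcompl)
  have hBbar_inl : ∀ j : Fin dK, Bbar (Sum.inl j) ∈ K := by
    intro j
    have : Bbar (Sum.inl j) = (bK j : Fb) := by
      simp [Bbar, Submodule.coe_prodEquivOfIsCompl']
    rw [this]
    exact (bK j).2
  -- lift the basis
  choose y hy using fun j => Ideal.Quotient.mk_surjective (I := (maximalIdeal R).map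
    (algebraMap R T)) (Bbar j)
  have hspan : Submodule.span R (Set.range y) = ⊤ := by
    rw [← quotient_span_eq_top_iff_span_eq_top, ← Set.range_comp]
    have : (Ideal.Quotient.mk ((maximalIdeal R).map (algebraMap R T))) ∘ y = Bbar :=
      funext hy
    rw [this]
    exact Bbar.span_eq
  have hcard : Fintype.card (Fin dK ⊕ Fin dK') = finrank R T := by
    rw [← finrank_quotient_map (R := R) (S := T), finrank_eq_card_basis Bbar]
  let B : Basis (Fin dK ⊕ Fin dK') R T := basisOfTopLeSpanOfCardEqFinrank y hspan.ge hcard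
  have hB : ∀ j, B j = y j := fun j => by
    simp [B, coe_basisOfTopLeSpanOfCardEqFinrank]
  rw [← LinearMap.det_toMatrix B g]
  -- entries of the `inl` columns are divisible by `ϖ`
  have hdiv : ∀ (i : Fin dK ⊕ Fin dK') (j : Fin dK),
      ϖ ∣ LinearMap.toMatrix B B g i (Sum.inl j) := by
    intro i j
    rw [LinearMap.toMatrix_apply, ← Ideal.mem_span_singleton, ← hϖ]
    apply repr_mem_maximalIdeal_of_mk_eq_zero
    rw [← hg, hB, hy]
    exact hBbar_inl j
  choose q hq using hdiv
  let A : Matrix (Fin dK ⊕ Fin dK') (Fin dK ⊕ Fin dK') R := Matrix.of fun i j =>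
    Sum.elim (fun j' => q i j') (fun j' => LinearMap.toMatrix B B g i (Sum.inr j')) j
  let v : Fin dK ⊕ Fin dK' → R := Sum.elim (fun _ => ϖ) (fun _ => 1)
  have hM : LinearMap.toMatrix B B g = Matrix.of fun i j => v j * A i j := by
    ext i j
    rcases j with j | j
    · simp [v, A, hq i j]
    · simp [v, A]
  rw [hM, Matrix.det_mul_row]
  have hv : ∏ j, v j = ϖ ^ dK := by
    simp [v, Fintype.prod_sum_type]
  rw [hv]
  exact Dvd.intro _ rfl

end DetRank

section RedDim

variable {R : Type*} [CommRing R] [IsLocalRing R]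
variable {T : Type*} [CommRing T] [Algebra R T] [Module.Free R T] [Module.Finite R T]

attribute [local instance] Ideal.Quotient.field

/-- If `z` is nilpotent modulo `𝔪T`, the kernel of multiplication by `z` on the fibre has
dimension at least `redDim`. -/
theorem redDim_le_finrank_ker_lmul (z : T) (N : ℕ)
    (hz : z ^ N ∈ (maximalIdeal R).map (algebraMap R T)) :
    redDim R T ≤ finrank (R ⧸ maximalIdeal R)
      (LinearMap.ker (Algebra.lmul (R ⧸ maximalIdeal R) (Fib R T)
        (Ideal.Quotient.mk ((maximalIdeal R).map (algebraMap R T)) z))) := by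
  set κ := R ⧸ maximalIdeal R
  set Fb := Fib R T
  haveI : Module.Finite κ Fb := Module.Finite.of_restrictScalars_finite R _ _
  set zb : Fb := Ideal.Quotient.mk ((maximalIdeal R).map (algebraMap R T)) z with hzb
  have hnil : IsNilpotent zb := by
    refine ⟨N, ?_⟩
    rw [hzb, ← map_pow, Ideal.Quotient.eq_zero_iff_mem]
    exact hz
  set f : Fb →ₗ[κ] Fb := Algebra.lmul κ Fb zb with hf
  set Nil : Submodule κ Fb := (nilradical Fb).restrictScalars κ with hNil
  have hrange : LinearMap.range f ≤ Nil := by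
    rintro x ⟨y, rfl⟩
    simp only [hf, Algebra.coe_lmul_eq_mul, LinearMap.mul_apply', hNil,
      Submodule.restrictScalars_mem, mem_nilradical]
    exact (Commute.all zb y).isNilpotent_mul_right hnil
  have h1 := LinearMap.finrank_range_add_finrank_ker f
  have h2 := Submodule.finrank_quotient_add_finrank Nil
  have h3 : finrank κ (LinearMap.range f) ≤ finrank κ Nil :=
    Submodule.finrank_mono hrange
  have h4 : redDim R T = finrank κ (Fb ⧸ Nil) := by
    unfold redDim
    exact (LinearEquiv.finrank_eq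
      (Submodule.Quotient.restrictScalarsEquiv κ (nilradical Fb))).symm
  have key : finrank κ (Fb ⧸ Nil) ≤ finrank κ (LinearMap.ker f) := by omega
  calc redDim R T = finrank κ (Fb ⧸ Nil) := h4
    _ ≤ finrank κ (LinearMap.ker f) := key

end RedDim

section Main

attribute [local instance] Ideal.Quotient.field

/-- **(α) TAME.**  For a finite free algebra `T` over a DVR `R` with residue field of
characteristic zero, `T` an integrally closed domain:
`v(discr) + dim_κ (T/𝔪T)_red ≤ rank T`. -/
theorem addVal_discr_add_redDim_le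
    {R : Type*} [CommRing R] [IsDomain R] [IsDiscreteValuationRing R]
    [CharZero (R ⧸ maximalIdeal R)]
    {T : Type*} [CommRing T] [IsDomain T] [IsIntegrallyClosed T] [Algebra R T]
    [Module.Free R T] [Module.Finite R T]
    {ι : Type*} [Fintype ι] [DecidableEq ι] (b : Basis ι R T) :
    IsDiscreteValuationRing.addVal R (Algebra.discr R b) + redDim R T ≤ (finrank R T : ℕ∞) := by
  classical
  obtain ⟨ϖ, hϖirr⟩ := IsDiscreteValuationRing.exists_irreducible R
  have hϖ : maximalIdeal R = Ideal.span {ϖ} := hϖirr.maximalIdeal_eq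
  set τ : T := algebraMap R T ϖ with hτdef
  have hpT : (maximalIdeal R).map (algebraMap R T) = Ideal.span {τ} := by
    rw [hϖ, Ideal.map_span, Set.image_singleton]
  have hinj : Function.Injective (algebraMap R T) := FaithfulSMul.algebraMap_injective R T
  have hτ0 : τ ≠ 0 := by
    rw [hτdef, Ne, map_eq_zero_iff _ hinj]; exact hϖirr.ne_zero
  haveI : IsPrincipalIdealRing T := isPrincipalIdealRing_of_finite_dvr R T
  -- the element `z`
  obtain ⟨z, hz⟩ : ∃ z : T, Ideal.span {z} = (Ideal.span {τ}).radical :=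
    ⟨Submodule.IsPrincipal.generator _, Ideal.span_singleton_generator _⟩
  have hzrad : z ∈ (Ideal.span {τ}).radical := hz ▸ Ideal.mem_span_singleton_self z
  obtain ⟨N, hN⟩ := Ideal.mem_radical_iff.mp hzrad
  have hzN : z ^ N ∈ (maximalIdeal R).map (algebraMap R T) := hpT ▸ hN
  -- (a) the twisted Gram matrix is divisible by `ϖ`
  have hentry : ∀ i j, ϖ ∣ Algebra.trace R T (b i * (z * b j)) := by
    intro i j
    rw [← Ideal.mem_span_singleton, ← hϖ]
    apply trace_mem_maximalIdeal_of_pow_mem _ N
    have : (b i * (z * b j)) ^ N = z ^ N * (b i * b j) ^ N := by ring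
    rw [this]
    exact Ideal.mul_mem_right _ _ hzN
  choose G hG using hentry
  let Gm : Matrix ι ι R := Matrix.of G
  -- (b) matrix identity
  have hmat : Algebra.traceMatrix R b * Algebra.leftMulMatrix b z = ϖ • Gm := by
    ext i j
    rw [Matrix.mul_apply, Matrix.smul_apply, smul_eq_mul]
    simp only [Gm, Matrix.of_apply]
    rw [← hG i j]
    simp only [Algebra.traceMatrix_apply, Algebra.leftMulMatrix_eq_repr_mul,
      Algebra.traceForm_apply]
    conv_rhs => rw [← b.sum_repr (z * b j), Finset.mul_sum, map_sum]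
    refine Finset.sum_congr rfl fun k _ => ?_
    rw [mul_smul_comm, map_smul, smul_eq_mul, mul_comm]
  -- (c) determinant identity
  have hdet : Algebra.discr R b * (Algebra.leftMulMatrix b z).det =
      ϖ ^ Fintype.card ι * Gm.det := by
    rw [Algebra.discr_def, ← Matrix.det_mul, hmat, Matrix.det_smul]
  -- (e) det-rank
  have hdvd : ϖ ^ redDim R T ∣ (Algebra.leftMulMatrix b z).det := by
    rw [Algebra.leftMulMatrix_apply, LinearMap.det_toMatrix]
    have h1 := pow_finrank_ker_dvd_det ϖ hϖ (Algebra.lmul R T z)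
      (Algebra.lmul (R ⧸ maximalIdeal R) (Fib R T)
        (Ideal.Quotient.mk ((maximalIdeal R).map (algebraMap R T)) z))
      (fun x => by simp)
    exact (pow_dvd_pow ϖ (redDim_le_finrank_ker_lmul z N hzN)).trans h1
  -- (d) `det G` is a unit
  have hunit : IsUnit Gm.det := by
    by_contra hnu
    have hmem : Gm.det ∈ maximalIdeal R := (mem_maximalIdeal _).mpr hnu
    have hdet0 : (Gm.map (Ideal.Quotient.mk (maximalIdeal R))).det = 0 := by
      rw [← RingHom.mapMatrix_apply, ← RingHom.map_det, Ideal.Quotient.eq_zero_iff_mem]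
      exact hmem
    obtain ⟨vb, hvb0, hvb⟩ := Matrix.exists_mulVec_eq_zero_iff.mpr hdet0
    choose v hv using fun i => Ideal.Quotient.mk_surjective (I := maximalIdeal R) (vb i)
    set c : T := ∑ j, v j • b j with hc
    have hrepr : ∀ i, b.repr c i = v i := by
      intro i
      rw [hc]
      exact congr_fun (b.repr_sum_self v) i
    have hcnot : ¬ τ ∣ c := by
      intro hdiv
      apply hvb0
      funext i
      have hcm : c ∈ (maximalIdeal R).map (algebraMap R T) := by
        rw [hpT, Ideal.mem_span_singleton]; exact hdiv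
      have := repr_mem_maximalIdeal_of_mk_eq_zero b c
        ((Ideal.Quotient.eq_zero_iff_mem).mpr hcm) i
      rw [hrepr] at this
      rw [← hv i]
      exact (Ideal.Quotient.eq_zero_iff_mem).mpr this
    obtain ⟨c', ε, hmul, hidem, hεne⟩ := exists_mul_eq_mul_idem hτ0 hz hcnot
    have hTrε : Algebra.trace R T ε ∉ maximalIdeal R := by
      apply trace_notMem_maximalIdeal_of_idem
      · rw [hpT, Ideal.mem_span_singleton]; exact hidem
      · rw [hpT, Ideal.mem_span_singleton]; exact hεne
    have hGv : ∀ i, (Gm.mulVec v) i ∈ maximalIdeal R := by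
      intro i
      rw [← Ideal.Quotient.eq_zero_iff_mem]
      have h0 := congr_fun hvb i
      simp only [Matrix.mulVec, dotProduct, Matrix.map_apply, Pi.zero_apply] at h0
      rw [Matrix.mulVec, dotProduct, map_sum]
      rw [← h0]
      refine Finset.sum_congr rfl fun j _ => ?_
      rw [map_mul, hv j]
    have hbi : ∀ i, Algebra.trace R T (b i * (z * c)) = ϖ * (Gm.mulVec v) i := by
      intro i
      rw [hc, Finset.mul_sum, Finset.mul_sum, map_sum, Matrix.mulVec, dotProduct,
        Finset.mul_sum]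
      refine Finset.sum_congr rfl fun j _ => ?_
      rw [mul_smul_comm, mul_smul_comm, map_smul, smul_eq_mul, hG i j]
      simp only [Gm, Matrix.of_apply]
      ring
    have hall : ∀ x : T, Algebra.trace R T (x * (z * c)) ∈ Ideal.span {ϖ ^ 2} := by
      intro x
      have hx : Algebra.trace R T (x * (z * c)) =
          ∑ i, b.repr x i * Algebra.trace R T (b i * (z * c)) := by
        conv_lhs => rw [← b.sum_repr x, Finset.sum_mul, map_sum]
        refine Finset.sum_congr rfl fun i _ => ?_
        rw [smul_mul_assoc, map_smul, smul_eq_mul]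
      rw [hx]
      refine Ideal.sum_mem _ fun i _ => ?_
      rw [hbi i]
      obtain ⟨r, hr⟩ := Ideal.mem_span_singleton.mp (hϖ ▸ hGv i)
      rw [hr]
      exact Ideal.mem_span_singleton.mpr ⟨b.repr x i * r, by ring⟩
    have h1 := hall c'
    have h2 : c' * (z * c) = ϖ • ε := by
      rw [Algebra.smul_def, ← hτdef, ← hmul]; ring
    rw [h2, map_smul, smul_eq_mul, Ideal.mem_span_singleton, pow_two] at h1
    have h3 : ϖ ∣ Algebra.trace R T ε := (mul_dvd_mul_iff_left hϖirr.ne_zero).mp h1
    exact hTrε (hϖ ▸ Ideal.mem_span_singleton.mpr h3)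
  -- (f) valuations
  have hval := congr_arg (IsDiscreteValuationRing.addVal R) hdet
  rw [IsDiscreteValuationRing.addVal_mul, IsDiscreteValuationRing.addVal_mul,
    IsDiscreteValuationRing.addVal_pow, IsDiscreteValuationRing.addVal_uniformizer hϖirr,
    IsDiscreteValuationRing.addVal_eq_zero_iff.mpr hunit, nsmul_one, add_zero] at hval
  have hle : (redDim R T : ℕ∞) ≤
      IsDiscreteValuationRing.addVal R (Algebra.leftMulMatrix b z).det := by
    have := IsDiscreteValuationRing.addVal_le_iff_dvd.mpr hdvd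
    rwa [IsDiscreteValuationRing.addVal_pow, IsDiscreteValuationRing.addVal_uniformizer hϖirr,
      nsmul_one] at this
  rw [finrank_eq_card_basis b, ← hval]
  gcongr

/-- **(α) TAME**, with `redDim` unfolded (the expression used by `Fermat.Agent.S18.H636.redDim`). -/
theorem addVal_discr_add_finrank_fibre_red_le
    {R : Type*} [CommRing R] [IsDomain R] [IsDiscreteValuationRing R]
    [CharZero (R ⧸ maximalIdeal R)]
    {T : Type*} [CommRing T] [IsDomain T] [IsIntegrallyClosed T] [Algebra R T]
    [Module.Free R T] [Module.Finite R T]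
    {ι : Type*} [Fintype ι] [DecidableEq ι] (b : Basis ι R T) :
    IsDiscreteValuationRing.addVal R (Algebra.discr R b) +
      (finrank (R ⧸ maximalIdeal R)
        ((T ⧸ (maximalIdeal R).map (algebraMap R T)) ⧸
          nilradical (T ⧸ (maximalIdeal R).map (algebraMap R T))) : ℕ) ≤ (finrank R T : ℕ∞) :=
  addVal_discr_add_redDim_le b

end Main

end Fermat.Agent.S18.H693
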